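import Fermat.Agent.LT.T7.Spec

/-!
# Row LT, tower T7, leaf T7.09 `SqrtC` (helper546), OFF-MAIN

Under `LTB.Hyp ρ Ψ` the field `fieldF ρ` (fixed field of `ρ⁻¹(SL₂(𝔽₃))`) contains a square root of
`-3`: `det ∘ ρ` is the cyclotomic character modulo `3`, so every `σ` with `det (ρ σ) = 1` fixes the
cube roots of unity, and `x = 2 ζ + 1` with `ζ² + ζ + 1 = 0` has `x² = -3`.
Mathlib + Prelude (`modThreeCyclotomicChar`) + `T7/Spec.lean` (helper797) only.
-/

set_option autoImplicit false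

noncomputable section

namespace Fermat.Agent.LT.T7.H546

open Fermat.Agent.LT.H130 Fermat.Agent.LT.T7 WeierstrassCurve

local notation "Γℚ" => (AlgebraicClosure ℚ ≃ₐ[ℚ] AlgebraicClosure ℚ)

/-- An automorphism with trivial cyclotomic character modulo `3` fixes every `ζ` with
`ζ² + ζ + 1 = 0`. -/
theorem fixes_zeta_of_char_eq_one_h546 (σ : Γℚ) (hσ : modThreeCyclotomicChar σ = 1)
    (ζ : AlgebraicClosure ℚ) (hζ : ζ ^ 2 + ζ + 1 = 0) : σ ζ = ζ := by
  have h3 : ζ ^ 3 = 1 := by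
    have : ζ ^ 3 - 1 = (ζ - 1) * (ζ ^ 2 + ζ + 1) := by ring
    rw [hζ, mul_zero] at this
    exact sub_eq_zero.mp this
  have hζ0 : ζ ≠ 0 := by
    rintro rfl
    norm_num at h3
  obtain ⟨u, hu⟩ : ∃ u : (AlgebraicClosure ℚ)ˣ, (u : AlgebraicClosure ℚ) = ζ :=
    ⟨Units.mk0 ζ hζ0, rfl⟩
  have hmem : u ∈ rootsOfUnity 3 (AlgebraicClosure ℚ) := by
    rw [mem_rootsOfUnity]
    apply Units.ext
    rw [Units.val_pow_eq_pow_val, hu, h3, Units.val_one]
  have hspec := modularCyclotomicCharacter.spec (AlgebraicClosure ℚ)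
    (IsAlgClosed.card_rootsOfUnity_eq (AlgebraicClosure ℚ) 3)
    (σ : AlgebraicClosure ℚ ≃+* AlgebraicClosure ℚ) hmem
  rw [← modThreeCyclotomicChar_apply, hσ] at hspec
  have hval : ((1 : (ZMod 3)ˣ) : ZMod 3).val = 1 := by
    rw [Units.val_one]; rfl
  rw [hval, pow_one, hu] at hspec
  exact hspec

/-- **T7.09 `SqrtC`.** -/
theorem sqrtC_h546 : SqrtC := by
  intro ρ Ψ hyp
  obtain ⟨x, hx⟩ := IsAlgClosed.exists_pow_nat_eq (-3 : AlgebraicClosure ℚ) (n := 2) (by norm_num)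
  have hζ : ((x - 1) / 2) ^ 2 + (x - 1) / 2 + 1 = 0 := by
    have : ((x - 1) / 2) ^ 2 + (x - 1) / 2 + 1 = (x ^ 2 + 3) / 4 := by
      field_simp
      ring
    rw [this, hx]
    norm_num
  have hfix : ∀ σ ∈ subSL ρ, σ x = x := by
    intro σ hσ
    have hdet : Matrix.GeneralLinearGroup.det (ρ σ) = 1 := hσ
    have hchar : modThreeCyclotomicChar σ = 1 := by rw [← hyp.det σ, hdet]
    have h := fixes_zeta_of_char_eq_one_h546 σ hchar _ hζ
    have hx2 : x = 2 * ((x - 1) / 2) + 1 := by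
      field_simp
      ring
    rw [hx2, map_add, map_mul, h, map_one, map_ofNat]
  have hmem : x ∈ fieldF ρ := by
    unfold fieldF
    rw [IntermediateField.mem_fixedField_iff]
    exact hfix
  refine ⟨⟨x, hmem⟩, ?_⟩
  apply Subtype.ext
  push_cast
  rw [← pow_two]
  exact hx

end Fermat.Agent.LT.T7.H546

end
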