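import Mathlib
import Fermat.Agent.LT.T7.H568.IdeleCoordSpec

/-!
# Row LT, tower T7, leaf T7.14.6c.4a `CosetC568` (helper546)

OFF-MAIN.  Imports: Mathlib and the vendored byte-identical spec closure of
`LT/T7/H568/IdeleCoordSpec.lean` (helper568@fef45a303).

For a non-zero ideal `𝔞` prime to `S` the idele `z` with components `1` at the infinite places,
`y₀_v` at `v ∈ S` and `ϖ_v ^ ord_v 𝔞` at `v ∉ S` satisfies `rad (z y) = rad y` and
`z y ∈ E_𝔞 ↔ y ∈ H`.
-/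

set_option autoImplicit false
set_option linter.unusedSectionVars false
set_option linter.unusedVariables false

open AutomorphicForm IsDedekindDomain NumberField Filter Topology MeasureTheory
open scoped ComplexConjugate ENNReal

noncomputable section

namespace Fermat.Agent.LT.T7.H546

open Fermat.Agent.LT.H556 Fermat.Agent.LT.H556.A0 Fermat.Agent.LT.T7 Fermat.Agent.LT.T7.Rigid
open Fermat.Agent.LT.T7.H568

variable {K : Type} [Field K] [NumberField K]

/-! ## Local uniformisers -/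

/-- The multiplicity of `v` in `𝔞`. -/
def cnt546 (𝔞 : Ideal (𝓞 K)) (v : HeightOneSpectrum (𝓞 K)) : ℕ :=
  (Associates.mk v.asIdeal).count (Associates.mk 𝔞).factors

theorem exists_unif_h546 (v : HeightOneSpectrum (𝓞 K)) :
    ∃ π : v.adicCompletion K, Valued.v π = WithZero.exp (-1 : ℤ) := by
  obtain ⟨r, hr⟩ := v.valuation_exists_uniformizer' K
  refine ⟨algebraMap (𝓞 K) (v.adicCompletion K) r, ?_⟩
  exact (HeightOneSpectrum.valuedAdicCompletion_eq_valuation v r).trans hr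

/-- A uniformiser of `K_v`. -/
def unif546 (v : HeightOneSpectrum (𝓞 K)) : v.adicCompletion K :=
  Classical.choose (exists_unif_h546 v)

theorem unif_val_h546 (v : HeightOneSpectrum (𝓞 K)) :
    Valued.v (unif546 v) = WithZero.exp (-1 : ℤ) :=
  Classical.choose_spec (exists_unif_h546 v)

theorem unif_ne_zero_h546 (v : HeightOneSpectrum (𝓞 K)) : unif546 v ≠ 0 := by
  intro h
  have h1 := unif_val_h546 v
  rw [h, map_zero] at h1
  exact WithZero.exp_ne_zero h1.symm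

theorem unif_pow_val_h546 (v : HeightOneSpectrum (𝓞 K)) (n : ℕ) :
    Valued.v ((unif546 v) ^ n) = WithZero.exp (-(n : ℤ)) := by
  rw [map_pow, unif_val_h546, ← WithZero.exp_nsmul]
  congr 1
  simp

/-! ## The idele `z` -/

open Classical in
/-- The finite components of `z`. -/
def zF546 (S : Finset (HeightOneSpectrum (𝓞 K))) (y₀ : (Adl K)ˣ) (𝔞 : Ideal (𝓞 K)) :
    (v : HeightOneSpectrum (𝓞 K)) → v.adicCompletion K :=
  fun v => if v ∈ S then (y₀ : Adl K).2 v else (unif546 v) ^ (cnt546 𝔞 v)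

open Classical in
/-- The finite components of `z⁻¹`. -/
def zG546 (S : Finset (HeightOneSpectrum (𝓞 K))) (y₀ : (Adl K)ˣ) (𝔞 : Ideal (𝓞 K)) :
    (v : HeightOneSpectrum (𝓞 K)) → v.adicCompletion K :=
  fun v => if v ∈ S then ((y₀⁻¹ : (Adl K)ˣ) : Adl K).2 v else ((unif546 v) ^ (cnt546 𝔞 v))⁻¹

theorem unit_mul_inv_snd_h546 (y : (Adl K)ˣ) (v : HeightOneSpectrum (𝓞 K)) :
    (y : Adl K).2 v * ((y⁻¹ : (Adl K)ˣ) : Adl K).2 v = 1 := by
  have h1 : ((y : Adl K) * ((y⁻¹ : (Adl K)ˣ) : Adl K)).2 v = (1 : Adl K).2 v := by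
    rw [Units.mul_inv]
  exact h1

theorem zF_mul_zG_h546 (S : Finset (HeightOneSpectrum (𝓞 K))) (y₀ : (Adl K)ˣ)
    (𝔞 : Ideal (𝓞 K)) (v : HeightOneSpectrum (𝓞 K)) : zF546 S y₀ 𝔞 v * zG546 S y₀ 𝔞 v = 1 := by
  unfold zF546 zG546
  by_cases hv : v ∈ S
  · rw [if_pos hv, if_pos hv]
    exact unit_mul_inv_snd_h546 y₀ v
  · rw [if_neg hv, if_neg hv]
    exact mul_inv_cancel₀ (pow_ne_zero _ (unif_ne_zero_h546 v))

theorem zF_mem_h546 (S : Finset (HeightOneSpectrum (𝓞 K))) (y₀ : (Adl K)ˣ) (𝔞 : Ideal (𝓞 K)) :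
    ∀ᶠ v : HeightOneSpectrum (𝓞 K) in Filter.cofinite,
      zF546 S y₀ 𝔞 v ∈ (v.adicCompletionIntegers K : Set (v.adicCompletion K)) := by
  filter_upwards [S.finite_toSet.compl_mem_cofinite] with v hv
  have hvS : v ∉ S := by simpa using hv
  unfold zF546
  rw [if_neg hvS]
  show (unif546 v) ^ (cnt546 𝔞 v) ∈ v.adicCompletionIntegers K
  rw [HeightOneSpectrum.mem_adicCompletionIntegers, unif_pow_val_h546, ← WithZero.exp_zero,
    WithZero.exp_le_exp]
  omega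

theorem zG_mem_h546 (S : Finset (HeightOneSpectrum (𝓞 K))) (y₀ : (Adl K)ˣ) {𝔞 : Ideal (𝓞 K)}
    (h𝔞 : 𝔞 ≠ ⊥) :
    ∀ᶠ v : HeightOneSpectrum (𝓞 K) in Filter.cofinite,
      zG546 S y₀ 𝔞 v ∈ (v.adicCompletionIntegers K : Set (v.adicCompletion K)) := by
  have h1 := Associates.finite_factors (I := 𝔞) h𝔞
  filter_upwards [S.finite_toSet.compl_mem_cofinite, h1] with v hv hc
  have hvS : v ∉ S := by simpa using hv
  have hc0 : cnt546 𝔞 v = 0 := by
    unfold cnt546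
    exact_mod_cast hc
  unfold zG546
  rw [if_neg hvS, hc0, pow_zero, inv_one]
  exact one_mem (v.adicCompletionIntegers K)

/-- The idele `z`. -/
def zIdele546 (S : Finset (HeightOneSpectrum (𝓞 K))) (y₀ : (Adl K)ˣ) {𝔞 : Ideal (𝓞 K)}
    (h𝔞 : 𝔞 ≠ ⊥) : (Adl K)ˣ where
  val := ((1 : InfiniteAdeleRing K), RestrictedProduct.mk (zF546 S y₀ 𝔞) (zF_mem_h546 S y₀ 𝔞))
  inv := ((1 : InfiniteAdeleRing K), RestrictedProduct.mk (zG546 S y₀ 𝔞) (zG_mem_h546 S y₀ h𝔞))
  val_inv := by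
    refine Prod.ext (mul_one _) (RestrictedProduct.ext _ _ fun v => ?_)
    exact zF_mul_zG_h546 S y₀ 𝔞 v
  inv_val := by
    refine Prod.ext (mul_one _) (RestrictedProduct.ext _ _ fun v => ?_)
    exact (mul_comm _ _).trans (zF_mul_zG_h546 S y₀ 𝔞 v)

theorem zIdele_fst_h546 (S : Finset (HeightOneSpectrum (𝓞 K))) (y₀ : (Adl K)ˣ)
    {𝔞 : Ideal (𝓞 K)} (h𝔞 : 𝔞 ≠ ⊥) (w : InfinitePlace K) :
    ((zIdele546 S y₀ h𝔞 : (Adl K)ˣ) : Adl K).1 w = 1 := rfl

theorem zIdele_snd_h546 (S : Finset (HeightOneSpectrum (𝓞 K))) (y₀ : (Adl K)ˣ)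
    {𝔞 : Ideal (𝓞 K)} (h𝔞 : 𝔞 ≠ ⊥) (v : HeightOneSpectrum (𝓞 K)) :
    ((zIdele546 S y₀ h𝔞 : (Adl K)ˣ) : Adl K).2 v = zF546 S y₀ 𝔞 v := rfl

theorem mul_snd_h546 (a b : (Adl K)ˣ) (v : HeightOneSpectrum (𝓞 K)) :
    ((a * b : (Adl K)ˣ) : Adl K).2 v = (a : Adl K).2 v * (b : Adl K).2 v := rfl

theorem mul_fst_h546 (a b : (Adl K)ˣ) (w : InfinitePlace K) :
    ((a * b : (Adl K)ˣ) : Adl K).1 w = (a : Adl K).1 w * (b : Adl K).1 w := rfl

/-! ## Orders -/

theorem val_ne_zero_h546 (y : (Adl K)ˣ) (v : HeightOneSpectrum (𝓞 K)) :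
    Valued.v ((y : Adl K).2 v) ≠ 0 :=
  (Valuation.ne_zero_iff _).mpr (unit_snd_ne_zero568 y v)

theorem ordI_mul_h546 (v : HeightOneSpectrum (𝓞 K)) (a b : (Adl K)ˣ) :
    ordI v (a * b) = ordI v a + ordI v b := by
  unfold ordI
  rw [mul_snd_h546, map_mul, WithZero.log_mul (val_ne_zero_h546 a v) (val_ne_zero_h546 b v)]
  ring

theorem ordI_z_h546 (S : Finset (HeightOneSpectrum (𝓞 K))) (y₀ : (Adl K)ˣ)
    {𝔞 : Ideal (𝓞 K)} (h𝔞 : 𝔞 ≠ ⊥) {v : HeightOneSpectrum (𝓞 K)} (hv : v ∉ S) :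
    ordI v (zIdele546 S y₀ h𝔞) = (cnt546 𝔞 v : ℤ) := by
  unfold ordI
  rw [zIdele_snd_h546]
  unfold zF546
  rw [if_neg hv, unif_pow_val_h546, WithZero.log_exp, neg_neg]

/-- The order of an idele vanishes at almost all places. -/
theorem ordI_eventually_zero_h546 (y : (Adl K)ˣ) :
    ∀ᶠ v : HeightOneSpectrum (𝓞 K) in Filter.cofinite, ordI v y = 0 := by
  have h1 : ∀ᶠ v : HeightOneSpectrum (𝓞 K) in Filter.cofinite,
      (y : Adl K).2 v ∈ (v.adicCompletionIntegers K : Set (v.adicCompletion K)) :=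
    ((y : Adl K).2).2
  have h2 : ∀ᶠ v : HeightOneSpectrum (𝓞 K) in Filter.cofinite,
      ((y⁻¹ : (Adl K)ˣ) : Adl K).2 v ∈ (v.adicCompletionIntegers K : Set (v.adicCompletion K)) :=
    (((y⁻¹ : (Adl K)ˣ) : Adl K).2).2
  filter_upwards [h1, h2] with v hv1 hv2
  have e1 : Valued.v ((y : Adl K).2 v) ≤ 1 :=
    (HeightOneSpectrum.mem_adicCompletionIntegers (𝓞 K) K v).mp hv1
  have e2 : Valued.v (((y⁻¹ : (Adl K)ˣ) : Adl K).2 v) ≤ 1 :=
    (HeightOneSpectrum.mem_adicCompletionIntegers (𝓞 K) K v).mp hv2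
  have e3 : Valued.v ((y : Adl K).2 v) * Valued.v (((y⁻¹ : (Adl K)ˣ) : Adl K).2 v) = 1 := by
    rw [← map_mul, unit_mul_inv_snd_h546, map_one]
  have e4 : Valued.v ((y : Adl K).2 v) = 1 := by
    rcases lt_or_eq_of_le e1 with h | h
    · exfalso
      have : Valued.v ((y : Adl K).2 v) * Valued.v (((y⁻¹ : (Adl K)ˣ) : Adl K).2 v) < 1 := by
        calc Valued.v ((y : Adl K).2 v) * Valued.v (((y⁻¹ : (Adl K)ˣ) : Adl K).2 v)
            ≤ Valued.v ((y : Adl K).2 v) * 1 := mul_le_mul_right e2 _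
          _ = Valued.v ((y : Adl K).2 v) := mul_one _
          _ < 1 := h
      rw [e3] at this
      exact lt_irrefl _ this
    · exact h
  unfold ordI
  rw [e4, WithZero.log_one, neg_zero]

/-! ## The ideal of an idele -/

/-- The multiplicity of `v₀` in a finite product of prime powers. -/
theorem count_finprod_pow_h546 (e : HeightOneSpectrum (𝓞 K) → ℕ)
    (he : ∀ᶠ v : HeightOneSpectrum (𝓞 K) in Filter.cofinite, e v = 0)
    (v₀ : HeightOneSpectrum (𝓞 K)) :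
    FractionalIdeal.count K v₀
        (((∏ᶠ v : HeightOneSpectrum (𝓞 K), v.asIdeal ^ e v : Ideal (𝓞 K)) :
          FractionalIdeal (nonZeroDivisors (𝓞 K)) K))
      = (e v₀ : ℤ) := by
  rw [FractionalIdeal.coeIdeal_finprod (nonZeroDivisors (𝓞 K)) K le_rfl]
  have h1 : (fun v : HeightOneSpectrum (𝓞 K) =>
      ((v.asIdeal ^ e v : Ideal (𝓞 K)) : FractionalIdeal (nonZeroDivisors (𝓞 K)) K))
      = fun v => (v.asIdeal : FractionalIdeal (nonZeroDivisors (𝓞 K)) K) ^ ((e v : ℕ) : ℤ) := by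
    funext v
    rw [FractionalIdeal.coeIdeal_pow, zpow_natCast]
  rw [h1]
  exact FractionalIdeal.count_finprod K v₀ (fun v => ((e v : ℕ) : ℤ))
    (by filter_upwards [he] with v hv; simp [hv])

open Classical in
/-- The exponents of `idl568 S y`. -/
def expo546 (S : Finset (HeightOneSpectrum (𝓞 K))) (y : (Adl K)ˣ)
    (v : HeightOneSpectrum (𝓞 K)) : ℕ :=
  if v ∈ S then 0 else (ordI v y).toNat

theorem idl_eq_finprod_h546 (S : Finset (HeightOneSpectrum (𝓞 K))) (y : (Adl K)ˣ) :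
    idl568 S y = ∏ᶠ v : HeightOneSpectrum (𝓞 K), v.asIdeal ^ expo546 S y v := by
  unfold idl568
  apply finprod_congr
  intro v
  unfold expo546
  by_cases hv : v ∈ S
  · rw [if_pos hv, if_pos hv, pow_zero]
  · rw [if_neg hv, if_neg hv]

theorem expo_eventually_zero_h546 (S : Finset (HeightOneSpectrum (𝓞 K))) (y : (Adl K)ˣ) :
    ∀ᶠ v : HeightOneSpectrum (𝓞 K) in Filter.cofinite, expo546 S y v = 0 := by
  filter_upwards [ordI_eventually_zero_h546 y] with v hv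
  unfold expo546
  by_cases hvS : v ∈ S
  · rw [if_pos hvS]
  · rw [if_neg hvS, hv]
    rfl

theorem count_idl_h546 (S : Finset (HeightOneSpectrum (𝓞 K))) (y : (Adl K)ˣ)
    (v₀ : HeightOneSpectrum (𝓞 K)) :
    FractionalIdeal.count K v₀
        ((idl568 S y : Ideal (𝓞 K)) : FractionalIdeal (nonZeroDivisors (𝓞 K)) K)
      = (expo546 S y v₀ : ℤ) := by
  rw [idl_eq_finprod_h546]
  exact count_finprod_pow_h546 _ (expo_eventually_zero_h546 S y) v₀

theorem cnt_eq_zero_h546 {𝔞 : Ideal (𝓞 K)} (h𝔞 : 𝔞 ≠ ⊥) {v : HeightOneSpectrum (𝓞 K)}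
    (hv : ¬ 𝔞 ≤ v.asIdeal) : cnt546 𝔞 v = 0 := by
  unfold cnt546
  by_contra hne
  apply hv
  have hirr : Irreducible (Associates.mk v.asIdeal) := v.associates_irreducible
  have hdvd : Associates.mk v.asIdeal ∣ Associates.mk 𝔞 := by
    have h0 : Associates.mk 𝔞 ≠ 0 := Associates.mk_ne_zero.mpr h𝔞
    exact (Associates.le_of_count_ne_zero h0 hirr hne)
  rw [Associates.mk_dvd_mk] at hdvd
  exact Ideal.le_of_dvd hdvd

/-! ## The leaf -/

/-- **T7.14.6c.4a `CosetC568`.** -/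
theorem cosetC546 (K : Type) [Field K] [NumberField K] : CosetC568 K := by
  intro S 𝔪 y₀ _ 𝔞 hprime
  obtain ⟨h𝔞, hS⟩ := hprime
  refine ⟨zIdele546 S y₀ h𝔞, ?_, ?_⟩
  · intro y
    funext w
    unfold rad568
    rw [mul_fst_h546, zIdele_fst_h546, one_mul]
  · intro y
    have hcell : InCell S 𝔪 y₀ (zIdele546 S y₀ h𝔞 * y) ↔ InCell S 𝔪 1 y := by
      unfold InCell
      constructor
      · intro h v hv
        obtain ⟨u, hu, he⟩ := h v hv
        refine ⟨u, hu, ?_⟩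
        rw [mul_snd_h546, zIdele_snd_h546] at he
        unfold zF546 at he
        rw [if_pos hv] at he
        have h1 : ((1 : (Adl K)ˣ) : Adl K).2 v = 1 := rfl
        rw [h1, one_mul]
        exact mul_left_cancel₀ (unit_snd_ne_zero568 y₀ v) he
      · intro h v hv
        obtain ⟨u, hu, he⟩ := h v hv
        refine ⟨u, hu, ?_⟩
        have h1 : ((1 : (Adl K)ˣ) : Adl K).2 v = 1 := rfl
        rw [h1, one_mul] at he
        rw [mul_snd_h546, zIdele_snd_h546]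
        unfold zF546
        rw [if_pos hv, he]
    have hord : ∀ v : HeightOneSpectrum (𝓞 K), v ∉ S →
        ordI v (zIdele546 S y₀ h𝔞 * y) = (cnt546 𝔞 v : ℤ) + ordI v y := by
      intro v hv
      rw [ordI_mul_h546, ordI_z_h546 S y₀ h𝔞 hv]
    constructor
    · rintro ⟨⟨hc, hnn⟩, hidl⟩
      refine ⟨hcell.mp hc, fun v hv => ?_⟩
      have h1 := count_idl_h546 S (zIdele546 S y₀ h𝔞 * y) v
      rw [hidl, FractionalIdeal.count_coe K v h𝔞] at h1
      unfold expo546 at h1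
      rw [if_neg hv] at h1
      have h2 := hnn v hv
      have h3 : ((ordI v (zIdele546 S y₀ h𝔞 * y)).toNat : ℤ)
          = ordI v (zIdele546 S y₀ h𝔞 * y) := Int.toNat_of_nonneg h2
      have h4 := hord v hv
      have h5 : ((Associates.mk v.asIdeal).count (Associates.mk 𝔞).factors : ℤ)
          = (cnt546 𝔞 v : ℤ) := rfl
      omega
    · rintro ⟨hc, hz⟩
      refine ⟨⟨hcell.mpr hc, fun v hv => ?_⟩, ?_⟩
      · rw [hord v hv, hz v hv]
        omega
      · rw [idl_eq_finprod_h546]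
        refine Eq.trans ?_ (Ideal.finprod_heightOneSpectrum_factorization h𝔞)
        apply finprod_congr
        intro v
        unfold HeightOneSpectrum.maxPowDividing expo546
        by_cases hv : v ∈ S
        · rw [if_pos hv]
          have h0 := cnt_eq_zero_h546 h𝔞 (hS v hv)
          unfold cnt546 at h0
          rw [h0]
        · rw [if_neg hv, hord v hv, hz v hv, add_zero, Int.toNat_natCast]
          rfl

end Fermat.Agent.LT.T7.H546

end
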