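import Mathlib
import Fermat.Agent.LT.T7.H962.SupplyQSpec
import Fermat.Agent.LT.T7.H416.Setup

/-!
# Row LT, tower T7, leaf T7.L2Q.1.C0: THE COMMON PART over `ℚ`, CORE FORM (helper546)

OFF-MAIN.  No hole, nothing assumed.  Mathlib, the spec of helper962 (`T7/H962/SupplyQSpec.lean`
8375a60b) and the lemmas of helper416 (`LT/T7/H416/Setup.lean`), helper930, helper62 (closed
tower T1); byte-identical copies.

    exists_base546c F hIQ Φ hconst T :
      ∃ B : H962.L2QBase962 F, H962.IsL2QBase962 Φ B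
        ∧ (∀ p prime, p ∈ B.S → every place of F over p is in B.S')        -- `H60.IsFullQ60`
        ∧ (∀ p ∈ B.S, p prime ∧ some place of B.S' is over p)               -- `under_exact`
        ∧ (∀ p ∈ T, p prime → p ∈ B.S)                                      -- prescribed primes

for EVERY finite set `T` of prime numbers which one wants in `S` (the ramified prime `3`, the
primes of a discriminant, ...): the adapters to the leaves of record (`H60.SetupQSC60`, and any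
later form with a field for the ramified primes) are one-liners.

Construction.  `σ` = the generator of `Gal(F/ℚ)` (`exists_generator930`), `s = adelicAut930 σ`,
frames of helper62 on the closed tower T1, `aut` for every level coming from `ℚ`.
`𝔪 = (Φ.level ∩ 𝒪_ℚ) · ∏ (p)`, the product over the prime numbers of the exceptional set of
`ConstOnFibresQ` and of `T`; `w₀` = a prime of `F` over a prime number `p ∤ N(𝔪)` with
`σ w₀ ≠ w₀` (`exists_prime_moved416`); `u = w₀ ∩ 𝒪_ℚ`, `o j = σ^j w₀`, `𝔫₀ = u 𝔪`,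
`𝔑₀ = 𝔫₀ 𝒪_F`, `S'` = the prime divisors of `𝔑₀`, `S` = the prime numbers under `S'`.
-/

set_option autoImplicit false
set_option linter.style.haveILetI false
set_option linter.unusedSectionVars false

open IsDedekindDomain NumberField MeasureTheory AutomorphicForm
open scoped Pointwise

noncomputable section

namespace Fermat.Agent.LT.T7.H546

open Fermat.Agent.LT.H556 Fermat.Agent.LT.H556.A0 Fermat.Agent.LT.T7 Fermat.Agent.LT.T7.L2Q
  Fermat.Agent.LT.T7.H893 Fermat.Agent.LT.T7.H962 Fermat.Agent.LT.T7.H416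
open Fermat.Agent.LT.T7.H930 Fermat.Agent.LT.T1.H930

attribute [local instance] Fermat.Agent.LT.T5.instMeasurableSpaceG

/-- An imaginary quadratic field (one infinite place, complex) has degree `2` over `ℚ`. -/
theorem finrank_of_isImagQuad546c (F : Type) [Field F] [NumberField F] (h : IsImagQuad F) :
    Module.finrank ℚ F = 2 := by
  classical
  haveI : IsTotallyComplex F := ⟨h.2⟩
  have h1 := InfinitePlace.card_eq_nrRealPlaces_add_nrComplexPlaces F
  have h2 : InfinitePlace.nrRealPlaces F = 0 := IsTotallyComplex.nrRealPlaces_eq_zero F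
  have h3 : Fintype.card (InfinitePlace F) = 1 := by
    rw [← Nat.card_eq_fintype_card]
    exact h.1
  rw [IsTotallyComplex.finrank]
  omega

/-- An imaginary quadratic field is a cyclic extension of `ℚ` of degree `2`. -/
theorem isCycExt_of_isImagQuad546c (F : Type) [Field F] [NumberField F] (h : IsImagQuad F) :
    IsCycExt ℚ F 2 := by
  have hd := finrank_of_isImagQuad546c F h
  haveI : Algebra.IsQuadraticExtension ℚ F := { finrank_eq_two' := hd }
  exact ⟨Nat.prime_two, inferInstance, hd⟩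

/-- A proper ideal of `𝓞 ℚ` which contains the prime number `p` is the set of the multiples of
`p`. -/
theorem mem_iff_dvd546c {v : Ideal (𝓞 ℚ)} (hv : v ≠ ⊤) {p : ℕ} (hp : p.Prime)
    (hpv : ((p : ℕ) : 𝓞 ℚ) ∈ v) (x : 𝓞 ℚ) :
    x ∈ v ↔ (p : ℤ) ∣ Rat.ringOfIntegersEquiv x := by
  obtain ⟨n, hn⟩ : ∃ n : ℤ, x = ((n : ℤ) : 𝓞 ℚ) := by
    refine ⟨Rat.ringOfIntegersEquiv x, ?_⟩
    have h := map_intCast Rat.ringOfIntegersEquiv.symm (Rat.ringOfIntegersEquiv x)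
    rw [Int.cast_id, RingEquiv.symm_apply_apply] at h
    exact h
  have hen : Rat.ringOfIntegersEquiv x = n := by rw [hn, map_intCast, Int.cast_id]
  rw [hen]
  subst hn
  constructor
  · intro hxv
    by_contra hnd
    have hcop : IsCoprime (p : ℤ) n :=
      (Nat.prime_iff_prime_int.mp hp).coprime_iff_not_dvd.mpr hnd
    obtain ⟨a, b, hab⟩ := hcop
    apply hv
    rw [Ideal.eq_top_iff_one]
    have h1 : (1 : 𝓞 ℚ) = ((a : ℤ) : 𝓞 ℚ) * ((p : ℕ) : 𝓞 ℚ)
        + ((b : ℤ) : 𝓞 ℚ) * ((n : ℤ) : 𝓞 ℚ) := by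
      have := congrArg (Int.cast : ℤ → 𝓞 ℚ) hab
      push_cast at this
      exact this.symm
    rw [h1]
    exact v.add_mem (v.mul_mem_left _ hpv) (v.mul_mem_left _ hxv)
  · rintro ⟨c, rfl⟩
    push_cast
    exact v.mul_mem_right _ hpv

/-- Two places of `ℚ` which contain the same prime number are equal. -/
theorem place_eq_of_prime_mem546c {v v' : HeightOneSpectrum (𝓞 ℚ)} {p : ℕ} (hp : p.Prime)
    (hpv : ((p : ℕ) : 𝓞 ℚ) ∈ v.asIdeal) (hpv' : ((p : ℕ) : 𝓞 ℚ) ∈ v'.asIdeal) : v = v' := by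
  apply HeightOneSpectrum.ext
  ext x
  rw [mem_iff_dvd546c v.isPrime.ne_top hp hpv, mem_iff_dvd546c v'.isPrime.ne_top hp hpv']

/-- There is a place of `F` over every prime number. -/
theorem exists_place_over_prime546c (F : Type) [Field F] [NumberField F] {p : ℕ}
    (hp : p.Prime) : ∃ w : HeightOneSpectrum (𝓞 F), ((p : ℕ) : 𝓞 F) ∈ w.asIdeal := by
  haveI : (Ideal.span {(p : ℤ)}).IsPrime :=
    (Ideal.span_singleton_prime (by exact_mod_cast hp.ne_zero)).mpr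
      (Nat.prime_iff_prime_int.mp hp)
  obtain ⟨Q, -, hQ, hQc⟩ := Ideal.exists_ideal_over_prime_of_isIntegral
    (Ideal.span {(p : ℤ)}) (⊥ : Ideal (𝓞 F)) (by
      rw [← RingHom.ker_eq_comap_bot, (RingHom.injective_iff_ker_eq_bot _).mp
        (FaithfulSMul.algebraMap_injective ℤ (𝓞 F))]
      exact bot_le)
  have hpQ : ((p : ℕ) : 𝓞 F) ∈ Q := by
    have h1 : (p : ℤ) ∈ Q.comap (algebraMap ℤ (𝓞 F)) := by
      rw [hQc]
      exact Ideal.mem_span_singleton_self _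
    rw [Ideal.mem_comap] at h1
    simpa using h1
  refine ⟨⟨Q, hQ, ?_⟩, hpQ⟩
  rintro rfl
  rw [Ideal.mem_bot] at hpQ
  exact hp.ne_zero (by exact_mod_cast hpQ)

section Main

variable (F : Type) [Field F] [NumberField F]

/-- **THE COMMON PART over `ℚ`, core form**: a common part with `S` = exactly the prime numbers
under `S'`, `S'` = all the places over the prime numbers of `S`, and `S` contains the prime
numbers of a prescribed finite set `T`. -/
theorem exists_base546c (hIQ : IsImagQuad F) (Φ : HeckeEigensystem F ℂ)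
    (hconst : ConstOnFibresQ Φ) (T : Finset ℕ) :
    ∃ B : L2QBase962 F, IsL2QBase962 Φ B ∧
      (∀ p : ℕ, p.Prime → p ∈ B.S → ∀ w : HeightOneSpectrum (𝓞 F),
        ((p : ℕ) : 𝓞 F) ∈ w.asIdeal → w ∈ B.S') ∧
      (∀ p ∈ B.S, p.Prime ∧
        ∃ w : HeightOneSpectrum (𝓞 F), w ∈ B.S' ∧ ((p : ℕ) : 𝓞 F) ∈ w.asIdeal) ∧
      (∀ p ∈ T, p.Prime → p ∈ B.S) := by
  classical
  have h := isCycExt_of_isImagQuad546c F hIQ
  haveI := h.galois
  have hℓ := h.prime
  have hcard : Nat.card (F ≃ₐ[ℚ] F) = 2 := by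
    rw [IsGalois.card_aut_eq_finrank, h.degree]
  obtain ⟨σ, hpow, hfix, hfaith⟩ := exists_generator930 ℚ F 2 hℓ h.degree
  obtain ⟨μ, D, r, hF, hr, -⟩ :=
    Fermat.Agent.LT.T5.H62.frame_exists_of_T1Out62 ℚ ⊤ (Fermat.Agent.LT.T1.t1Out ℚ)
  obtain ⟨μ', D', r', hF', hr', -⟩ :=
    Fermat.Agent.LT.T5.H62.frame_exists_of_T1Out62 F ⊤ (Fermat.Agent.LT.T1.t1Out F)
  have hLC : LocallyCompactSpace (G F) := (Fermat.Agent.LT.T1.t1Out F).locComp.2.1
  have hSC : SecondCountableTopology (G F) := (Fermat.Agent.LT.T1.t1Out F).locComp.2.2.2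
  obtain ⟨Sexc, hSexc⟩ := hconst
  -- the auxiliary level
  set 𝔪 : Ideal (𝓞 ℚ) := Ideal.comap (algebraMap (𝓞 ℚ) (𝓞 F)) Φ.level *
    ∏ p ∈ (Sexc ∪ T).filter Nat.Prime, Ideal.span {((p : ℕ) : 𝓞 ℚ)} with h𝔪
  have h𝔪ne : 𝔪 ≠ ⊥ := by
    rw [h𝔪, ← Ideal.zero_eq_bot]
    refine mul_ne_zero (comap_ne_bot416 Φ.level_ne_bot) ?_
    rw [Finset.prod_ne_zero_iff]
    intro p hp
    rw [Ideal.zero_eq_bot, Ne, Ideal.span_singleton_eq_bot]
    have hp' : p.Prime := (Finset.mem_filter.mp hp).2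
    exact_mod_cast hp'.ne_zero
  have hlev𝔪 : Ideal.comap (algebraMap (𝓞 ℚ) (𝓞 F)) Φ.level ∣ 𝔪 := Dvd.intro _ rfl
  have hexc𝔪 : ∀ q ∈ Sexc ∪ T, q.Prime → Ideal.span {((q : ℕ) : 𝓞 ℚ)} ∣ 𝔪 := fun q hq hqp =>
    Dvd.dvd.mul_left (Finset.dvd_prod_of_mem (fun p : ℕ => Ideal.span {((p : ℕ) : 𝓞 ℚ)})
      (Finset.mem_filter.mpr ⟨hq, hqp⟩)) _
  set M : ℕ := Ideal.absNorm 𝔪 with hM
  have hMne : M ≠ 0 := by rw [hM, Ne, Ideal.absNorm_eq_zero_iff]; exact h𝔪ne
  -- the place `w₀`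
  have hσx : ∃ x : F, σ x ≠ x := by
    obtain ⟨x, hx⟩ := hfaith 1 one_pos hℓ.one_lt
    exact ⟨x, by simpa using hx⟩
  obtain ⟨θ, hθ⟩ := exists_moved416 hσx
  obtain ⟨p, w, hp, hpM, hwprime, hpw, hmoved⟩ :=
    exists_prime_moved416 F (oEquiv416 σ) θ hθ M hMne
  have hwne : w ≠ ⊥ := by
    rintro rfl
    rw [Ideal.mem_bot] at hpw
    have : p = 0 := by exact_mod_cast hpw
    exact hp.ne_zero this
  set w₀ : HeightOneSpectrum (𝓞 F) := ⟨w, hwprime, hwne⟩ with hw₀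
  have hmoved' : mapPlace416 σ w₀ ≠ w₀ := by
    intro h1
    apply hmoved
    have := congrArg HeightOneSpectrum.asIdeal h1
    exact this
  set u : HeightOneSpectrum (𝓞 ℚ) := below416 w₀ with hu
  have hpu : (p : 𝓞 ℚ) ∈ u.asIdeal := by
    show (p : 𝓞 ℚ) ∈ Ideal.comap (algebraMap (𝓞 ℚ) (𝓞 F)) w
    rw [Ideal.mem_comap, map_natCast]
    exact hpw
  have hu𝔪 : ¬ u.asIdeal ∣ 𝔪 := by
    intro hdvd
    have h1 : (M : 𝓞 ℚ) ∈ u.asIdeal := (Ideal.dvd_iff_le.mp hdvd) (Ideal.absNorm_mem 𝔪)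
    have h2 := one_mem_of_coprime416 u.asIdeal
      ((Nat.Prime.coprime_iff_not_dvd hp).mpr hpM) hpu h1
    exact u.isPrime.ne_top ((Ideal.eq_top_iff_one _).mpr h2)
  -- the levels
  set 𝔫₀ : Ideal (𝓞 ℚ) := u.asIdeal * 𝔪 with h𝔫₀
  have h𝔫₀ne : 𝔫₀ ≠ ⊥ := by
    rw [h𝔫₀, ← Ideal.zero_eq_bot]
    exact mul_ne_zero u.ne_bot h𝔪ne
  have hu𝔫₀ : u.asIdeal ∣ 𝔫₀ := Dvd.intro _ rfl
  have h𝔪𝔫₀ : 𝔪 ∣ 𝔫₀ := Dvd.intro_left _ rfl
  have hu2 : ¬ u.asIdeal ^ 2 ∣ 𝔫₀ := by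
    intro h1
    rw [h𝔫₀, pow_two] at h1
    exact hu𝔪 ((mul_dvd_mul_iff_left u.ne_bot).mp h1)
  set 𝔑₀ : Ideal (𝓞 F) := upI (K' := F) 𝔫₀ with h𝔑₀
  have h𝔑₀ne : 𝔑₀ ≠ ⊥ := by
    rw [h𝔑₀, upI, Ne, Ideal.map_eq_bot_iff_of_injective
      (FaithfulSMul.algebraMap_injective (𝓞 ℚ) (𝓞 F))]
    exact h𝔫₀ne
  have hfin : {v : HeightOneSpectrum (𝓞 F) | v.asIdeal ∣ 𝔑₀}.Finite :=
    Ideal.finite_factors h𝔑₀ne
  have hmemS : ∀ w' : HeightOneSpectrum (𝓞 F), w' ∈ hfin.toFinset ↔ w'.asIdeal ∣ 𝔑₀ := by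
    intro w'
    rw [Set.Finite.mem_toFinset]
    rfl
  have hmemS' : ∀ w' : HeightOneSpectrum (𝓞 F),
      w' ∈ hfin.toFinset ↔ (below416 (K := ℚ) w').asIdeal ∣ 𝔫₀ := by
    intro w'
    rw [hmemS, h𝔑₀, dvd_upI_iff416]
  -- the prime numbers
  set N₀ : ℕ := Ideal.absNorm 𝔫₀ with hN₀
  have hN₀ne : N₀ ≠ 0 := by rw [hN₀, Ne, Ideal.absNorm_eq_zero_iff]; exact h𝔫₀ne
  set Sset : Finset ℕ := (Finset.range (N₀ + 1)).filter
    (fun q => q.Prime ∧ ∃ w' ∈ hfin.toFinset, ((q : ℕ) : 𝓞 F) ∈ w'.asIdeal) with hSset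
  have hunder : ∀ q : ℕ, q.Prime → ∀ w' : HeightOneSpectrum (𝓞 F),
      ((q : ℕ) : 𝓞 F) ∈ w'.asIdeal → w' ∈ hfin.toFinset → q ∈ Sset := by
    intro q hq w' hqw' hw'
    refine Finset.mem_filter.mpr ⟨?_, hq, w', hw', hqw'⟩
    rw [Finset.mem_range, Nat.lt_succ_iff]
    refine Nat.le_of_dvd (Nat.pos_of_ne_zero hN₀ne) ?_
    by_contra hnd
    have h1 : (below416 (K := ℚ) w').asIdeal ∣ 𝔫₀ := (hmemS' w').mp hw'
    have h2 : ((N₀ : ℕ) : 𝓞 ℚ) ∈ (below416 (K := ℚ) w').asIdeal :=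
      (Ideal.dvd_iff_le.mp h1) (Ideal.absNorm_mem 𝔫₀)
    have h3 : ((N₀ : ℕ) : 𝓞 F) ∈ w'.asIdeal := by
      have h4 : algebraMap (𝓞 ℚ) (𝓞 F) ((N₀ : ℕ) : 𝓞 ℚ) ∈ w'.asIdeal := h2
      rwa [map_natCast] at h4
    have h5 := one_mem_of_coprime416 w'.asIdeal
      ((Nat.Prime.coprime_iff_not_dvd hq).mpr hnd) hqw' h3
    exact w'.isPrime.ne_top ((Ideal.eq_top_iff_one _).mpr h5)
  have hbelow_mem : ∀ (q : ℕ) (w' : HeightOneSpectrum (𝓞 F)), ((q : ℕ) : 𝓞 F) ∈ w'.asIdeal →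
      ((q : ℕ) : 𝓞 ℚ) ∈ (below416 (K := ℚ) w').asIdeal := by
    intro q w' hqw'
    show ((q : ℕ) : 𝓞 ℚ) ∈ Ideal.comap (algebraMap (𝓞 ℚ) (𝓞 F)) w'.asIdeal
    rw [Ideal.mem_comap, map_natCast]
    exact hqw'
  -- the orbit
  have horb_over : ∀ j : ℕ, PlaceOver ℚ F u (mapPlace416 (σ ^ j) w₀) := fun j =>
    placeOver_mapPlace416 _ (placeOver_below416 w₀)
  have horb_below : ∀ j : ℕ, below416 (K := ℚ) (mapPlace416 (σ ^ j) w₀) = u := fun j =>
    below_eq_of_placeOver416 (horb_over j)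
  -- a prime number of the exceptional set or of `T` is under `S'`
  have hmem_of : ∀ q ∈ Sexc ∪ T, q.Prime → q ∈ Sset := by
    intro q hmem hq
    obtain ⟨w', hw'⟩ := exists_place_over_prime546c F hq
    refine hunder q hq w' hw' ?_
    rw [hmemS']
    have h3 : (below416 (K := ℚ) w').asIdeal ∣ Ideal.span {((q : ℕ) : 𝓞 ℚ)} := by
      rw [Ideal.dvd_iff_le, Ideal.span_singleton_le_iff_mem]
      exact hbelow_mem q w' hw'
    exact (h3.trans (hexc𝔪 q hmem hq)).trans h𝔪𝔫₀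
  refine ⟨⟨adelicAut930 σ.toRingEquiv, (algebraMap ℚ F).fieldRange, ⟨μ, D, r⟩,
    ⟨μ', D', r'⟩, 𝔑₀, hfin.toFinset, Sset, u,
    fun j => mapPlace416 (σ ^ j) w₀⟩, ?_, ?_, ?_, ?_⟩
  · refine
      { cyc := ⟨hℓ.pos, ?_, ?_, ?_⟩
        base := ?_
        frame := ⟨hF, hr⟩
        frame' := ⟨hF', hr'⟩
        aut := ?_
        level_le := ?_
        mem_S' := hmemS
        under := hunder
        const := ?_
        orbit_rel := ?_
        orbit_ne := ?_
        orbit_over := horb_over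
        orbit_level := ?_
        orbit_good := ?_
        base_level := ⟨𝔫₀, h𝔫₀ne, rfl, hu𝔫₀, hu2⟩
        orbit_all := ?_
        fibre := ?_ }
    · intro x
      show ((σ.toRingEquiv : RingAut F) ^ 2) x = x
      rw [toRingEquiv_pow930]
      exact hpow x
    · intro x
      show x ∈ (algebraMap ℚ F).fieldRange ↔ σ x = x
      rw [RingHom.mem_fieldRange]
      exact hfix x
    · intro j hj0 hjl
      obtain ⟨x, hx⟩ := hfaith j hj0 hjl
      refine ⟨x, ?_⟩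
      show ((σ.toRingEquiv : RingAut F) ^ j) x ≠ x
      rw [toRingEquiv_pow930]
      exact hx
    · intro x
      show x ∈ (algebraMap ℚ F).fieldRange ↔ _
      exact RingHom.mem_fieldRange
    · intro 𝔫
      exact autPreserves_all930 hLC hSC (adelicAut930 σ.toRingEquiv) (upI (K' := F) 𝔫)
        (map_level_stable930 σ 𝔫) μ' hF'.haar r' hr'
    · -- level_le
      show upI (K' := F) 𝔫₀ ≤ Φ.level
      rw [upI, Ideal.map_le_iff_le_comap]
      exact (Ideal.dvd_iff_le.mp h𝔪𝔫₀).trans (Ideal.dvd_iff_le.mp hlev𝔪)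
    · -- const
      intro q hq hqS w₁ w₂ h1 h2
      refine hSexc q hq ?_ w₁ w₂ h1 h2
      intro hmem
      exact hqS (hmem_of q (Finset.mem_union_left _ hmem) hq)
    · -- orbit_rel
      intro j
      show (mapPlace416 (σ ^ (j + 1)) w₀).asIdeal
        = Ideal.map (RingOfIntegers.mapRingEquiv σ.toRingEquiv) (mapPlace416 (σ ^ j) w₀).asIdeal
      rw [pow_succ', mapPlace_mul416]
      rfl
    · -- orbit_ne
      intro j hj0 hjl
      show mapPlace416 (σ ^ j) w₀ ≠ mapPlace416 (σ ^ 0) w₀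
      rw [pow_zero, mapPlace_one416]
      exact mapPlace_pow_ne416 hℓ hcard hmoved' hj0 hjl
    · -- orbit_level
      intro j
      show mapPlace416 (σ ^ j) w₀ ∈ hfin.toFinset
      rw [hmemS', horb_below j]
      exact hu𝔫₀
    · -- orbit_good
      intro j hdvd
      apply hu𝔪
      have h1 : Ideal.comap (algebraMap (𝓞 ℚ) (𝓞 F)) Φ.level
          ≤ (below416 (K := ℚ) (mapPlace416 (σ ^ j) w₀)).asIdeal :=
        Ideal.comap_mono (Ideal.dvd_iff_le.mp hdvd)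
      rw [horb_below j] at h1
      exact (Ideal.dvd_iff_le.mpr h1).trans hlev𝔪
    · -- orbit_all
      intro w' hw'
      obtain ⟨τ, hτ⟩ := exists_mapPlace_eq416 (placeOver_below416 (K := ℚ) w₀) hw'
      have hσ1 : σ ≠ 1 := by
        rintro rfl
        exact hmoved' (mapPlace_one416 w₀)
      obtain ⟨j, hj, rfl⟩ := exists_pow_eq416 hℓ hcard hσ1 τ
      exact ⟨j, hj, hτ.symm⟩
    · -- fibre
      intro v w₁ w₂ h1 h2 hmem
      rw [hmemS'] at hmem ⊢
      rw [below_eq_of_placeOver416 h2]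
      rwa [below_eq_of_placeOver416 h1] at hmem
  · -- full: `S'` contains every place over a prime number of `S`
    intro q hq hqS w₂ h2
    obtain ⟨-, -, w₁, hw₁, h1⟩ := Finset.mem_filter.mp hqS
    show w₂ ∈ hfin.toFinset
    rw [hmemS'] at hw₁ ⊢
    rw [place_eq_of_prime_mem546c hq (hbelow_mem q w₂ h2) (hbelow_mem q w₁ h1)]
    exact hw₁
  · -- exact: `S` consists of prime numbers under `S'`
    intro q hq
    obtain ⟨-, hqp, w₁, hw₁, h1⟩ := Finset.mem_filter.mp hq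
    exact ⟨hqp, w₁, hw₁, h1⟩
  · -- the prescribed prime numbers
    intro q hq hqp
    exact hmem_of q (Finset.mem_union_right _ hq) hqp

end Main

end Fermat.Agent.LT.T7.H546

end
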