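import Mathlib
import Fermat.Agent.LT.T7.H60.SupplyQRam
import Fermat.Agent.LT.T7.H546.SetupQCore

/-!
# Row LT, tower T7, leaf T7.L2Q.1.C0 OF RECORD `SetupQRC60` = the setup over `ℚ` with the
# ramified prime (helper546)

OFF-MAIN.  `setupQRC60_546 F : T7.L2Q.H60.SetupQRC60 F`, VERBATIM against
`LT/T7/H60/SupplyQRam.lean` (helper60@e0f6fdef3, sha256 1b96e813), UNCONDITIONAL.  No hole,
nothing assumed.  Adapter of the core form `exists_base546c` (`SetupQCore.lean`) with the
prescribed set `T = {3}`: the common part of helper962 with `S` = exactly the prime numbers under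
`S'`, `S'` = all the places over the prime numbers of `S`, `3 ∈ S`, read as a common part of
helper60 (`fibre` in prime numbers = `under` + fullness).
-/

set_option autoImplicit false

open IsDedekindDomain NumberField AutomorphicForm

noncomputable section

namespace Fermat.Agent.LT.T7.H546

open Fermat.Agent.LT.H556 Fermat.Agent.LT.H556.A0 Fermat.Agent.LT.T7 Fermat.Agent.LT.T7.L2Q

/-- A common part of helper962 which is full and exact is a common part of helper60. -/
theorem isL2QBase60_of_core546 {F : Type} [Field F] [NumberField F]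
    {Φ : HeckeEigensystem F ℂ} {B : H962.L2QBase962 F} (hB : H962.IsL2QBase962 Φ B)
    (hfull : ∀ p : ℕ, p.Prime → p ∈ B.S → ∀ w : HeightOneSpectrum (𝓞 F),
      ((p : ℕ) : 𝓞 F) ∈ w.asIdeal → w ∈ B.S')
    (hex : ∀ p ∈ B.S, p.Prime ∧
      ∃ w : HeightOneSpectrum (𝓞 F), w ∈ B.S' ∧ ((p : ℕ) : 𝓞 F) ∈ w.asIdeal) :
    H60.IsL2QBase Φ (⟨B.s, B.k, B.R, B.R', B.𝔑₀, B.S', B.S, B.u, B.o⟩ : H60.L2QBase F) :=
  { cyc := hB.cyc
    base := hB.base
    frame := hB.frame
    frame' := hB.frame'
    aut := hB.aut
    level_le := hB.level_le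
    mem_S' := hB.mem_S'
    under := hB.under
    under_exact := hex
    const := hB.const
    orbit_rel := hB.orbit_rel
    orbit_ne := hB.orbit_ne
    orbit_over := hB.orbit_over
    orbit_level := hB.orbit_level
    orbit_good := hB.orbit_good
    base_level := hB.base_level
    orbit_all := hB.orbit_all
    fibre := fun p hp w w' hw hw' hmem => hfull p hp (hB.under p hp w hw hmem) w' hw' }

/-- **LEAF T7.L2Q.1.C0 OF RECORD `SetupQRC60`**: the common part exists, with `3 ∈ S`. -/
theorem setupQRC60_546 (F : Type) [Field F] [NumberField F] : H60.SetupQRC60 F := by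
  intro _ hIQ Φ _ hconst
  obtain ⟨B, hB, hfull, hex, hT⟩ := exists_base546c F hIQ Φ hconst {3}
  exact ⟨⟨B.s, B.k, B.R, B.R', B.𝔑₀, B.S', B.S, B.u, B.o⟩,
    isL2QBase60_of_core546 hB hfull hex,
    hT 3 (Finset.mem_singleton_self 3) Nat.prime_three⟩

end Fermat.Agent.LT.T7.H546

end
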